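import Mathlib

/-!
# S58 / [PAR] (P0): heights of primitive polynomial vectors

`k` a field.  For `v : Fin n → k[X]` the height is `s58p_H v = max_i natDegree (v i)`;
`v` is primitive (`s58p_Prim`) if every common divisor is a unit.
Two primitive vectors that are proportional have the same component degrees.
-/

set_option autoImplicit false

namespace Fermat.Agent.S58

open Polynomial

variable {k : Type*} [Field k]

/-- Height of a polynomial vector: the maximum of the degrees of its components. -/
noncomputable def s58p_H {n : ℕ} (v : Fin n → k[X]) : ℕ :=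
  Finset.univ.sup fun i => (v i).natDegree

/-- A polynomial vector is primitive if every common divisor of its components is a unit. -/
def s58p_Prim {n : ℕ} (v : Fin n → k[X]) : Prop :=
  ∀ r : k[X], (∀ i, r ∣ v i) → IsUnit r

theorem s58p_natDegree_le_H {n : ℕ} (v : Fin n → k[X]) (i : Fin n) :
    (v i).natDegree ≤ s58p_H v :=
  Finset.le_sup (f := fun i => (v i).natDegree) (Finset.mem_univ i)

theorem s58p_H_le {n : ℕ} {v : Fin n → k[X]} {M : ℕ} (h : ∀ i, (v i).natDegree ≤ M) :
    s58p_H v ≤ M :=
  Finset.sup_le fun i _ => h i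

theorem s58p_exists_natDegree_eq_H {n : ℕ} (v : Fin (n + 1) → k[X]) :
    ∃ i, (v i).natDegree = s58p_H v := by
  obtain ⟨i, -, hi⟩ := Finset.exists_mem_eq_sup Finset.univ Finset.univ_nonempty
    fun i => (v i).natDegree
  exact ⟨i, hi.symm⟩

/-- The vector of coefficients at the height. -/
noncomputable def s58p_lead {n : ℕ} (v : Fin n → k[X]) : Fin n → k :=
  fun i => (v i).coeff (s58p_H v)

theorem s58p_lead_ne_zero {n : ℕ} {v : Fin (n + 1) → k[X]} (hv : v ≠ 0) : s58p_lead v ≠ 0 := by
  obtain ⟨i, hi⟩ := s58p_exists_natDegree_eq_H v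
  intro h0
  by_cases hvi : v i = 0
  · -- then the height is zero and all components are constants
    have hH : s58p_H v = 0 := by rw [← hi, hvi, natDegree_zero]
    apply hv
    funext j
    have hj : (v j).natDegree = 0 := Nat.le_zero.mp (hH ▸ s58p_natDegree_le_H v j)
    have hc : (v j).coeff 0 = 0 := by
      have := congrFun h0 j
      simpa [s58p_lead, hH] using this
    rw [eq_C_of_natDegree_eq_zero hj, hc, C_0]
    rfl
  · have := congrFun h0 i
    simp only [s58p_lead, ← hi, Pi.zero_apply] at this
    exact hvi (leadingCoeff_eq_zero.mp this)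

/-- Bezout form of primitivity (`k[X]` is a PID). -/
theorem s58p_Prim.bezout {n : ℕ} {v : Fin n → k[X]} (hv : s58p_Prim v) :
    ∃ e : Fin n → k[X], ∑ i, e i * v i = 1 := by
  obtain ⟨g, hg⟩ := (IsPrincipalIdealRing.principal (Ideal.span (Set.range v))).principal
  have hgu : IsUnit g := by
    apply hv
    intro i
    have : v i ∈ Ideal.span (Set.range v) := Ideal.subset_span ⟨i, rfl⟩
    rw [hg] at this
    exact Ideal.mem_span_singleton.mp this
  have h1 : (1 : k[X]) ∈ Ideal.span (Set.range v) := by
    rw [hg]
    exact Ideal.mem_span_singleton.mpr hgu.dvd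
  exact (Ideal.mem_span_range_iff_exists_fun).mp h1

/-- Proportional primitive vectors have the same component degrees. -/
theorem s58p_natDegree_eq_of_prop {n : ℕ} {v w : Fin n → k[X]} (hv : s58p_Prim v)
    (hw : s58p_Prim w) (h : ∀ i j, v i * w j = v j * w i) (i : Fin n) :
    (v i).natDegree = (w i).natDegree := by
  obtain ⟨e, he⟩ := hw.bezout
  obtain ⟨e', he'⟩ := hv.bezout
  -- v = u • w
  have h1 : ∀ i, v i = (∑ j, e j * v j) * w i := by
    intro i
    calc v i = v i * ∑ j, e j * w j := by rw [he, mul_one]
      _ = ∑ j, e j * (v i * w j) := by rw [Finset.mul_sum]; congr 1; funext j; ring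
      _ = ∑ j, e j * (v j * w i) := by congr 1; funext j; rw [h i j]
      _ = (∑ j, e j * v j) * w i := by rw [Finset.sum_mul]; congr 1; funext j; ring
  have h2 : ∀ i, w i = (∑ j, e' j * w j) * v i := by
    intro i
    calc w i = w i * ∑ j, e' j * v j := by rw [he', mul_one]
      _ = ∑ j, e' j * (v j * w i) := by rw [Finset.mul_sum]; congr 1; funext j; ring
      _ = ∑ j, e' j * (v i * w j) := by congr 1; funext j; rw [h i j]
      _ = (∑ j, e' j * w j) * v i := by rw [Finset.sum_mul]; congr 1; funext j; ring
  set u := ∑ j, e j * v j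
  set u' := ∑ j, e' j * w j
  -- u * u' = 1
  have huu : u * u' = 1 := by
    have : ∑ j, e' j * v j = (u * u') * ∑ j, e' j * v j := by
      rw [Finset.mul_sum]
      congr 1; funext j
      conv_lhs => rw [h1 j, h2 j]
      ring
    rw [he', mul_one] at this
    exact this.symm
  have hu : IsUnit u := IsUnit.of_mul_eq_one _ huu
  obtain ⟨c, hc, hcu⟩ := Polynomial.isUnit_iff.mp hu
  rw [h1 i, ← hcu]
  exact natDegree_C_mul hc.ne_zero

end Fermat.Agent.S58
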