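import Mathlib
import Fermat.Agent.S58.Par.Height

/-!
# S58 / [PAR] (P1): the Gauss lemma for `(a : b), (c : d) ↦ (ac : ad + bc : bd)`

Primitivity and exact additivity of the height, at all places of `k(X)` including infinity.
-/

set_option autoImplicit false

namespace Fermat.Agent.S58

open Polynomial

variable {k : Type*} [Field k]

/-- Every non-unit of `k[X]` has a prime divisor (for `0` take `X`). -/
theorem s58p_exists_prime_dvd {r : k[X]} (hr : ¬ IsUnit r) : ∃ p : k[X], Prime p ∧ p ∣ r := by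
  by_cases h0 : r = 0
  · exact ⟨X, prime_X, h0 ▸ dvd_zero _⟩
  · obtain ⟨p, hp, hpr⟩ := WfDvdMonoid.exists_irreducible_factor hr h0
    exact ⟨p, hp.prime, hpr⟩

theorem s58p_prim_of_no_prime {n : ℕ} {v : Fin n → k[X]}
    (h : ∀ p : k[X], Prime p → ¬ ∀ i, p ∣ v i) : s58p_Prim v := by
  intro r hr
  by_contra hru
  obtain ⟨p, hp, hpr⟩ := s58p_exists_prime_dvd hru
  exact h p hp fun i => hpr.trans (hr i)

/-- The symmetric product of two primitive pairs is primitive. -/
theorem s58p_prim_sym2 {a b c d : k[X]} (hab : IsCoprime a b) (hcd : IsCoprime c d) :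
    s58p_Prim ![a * c, a * d + b * c, b * d] := by
  apply s58p_prim_of_no_prime
  intro p hp hall
  have h0 : p ∣ a * c := by simpa using hall 0
  have h1 : p ∣ a * d + b * c := by simpa using hall 1
  have h2 : p ∣ b * d := by simpa using hall 2
  have hnab : ¬ (p ∣ a ∧ p ∣ b) := fun h => hp.not_isUnit (hab.isUnit_of_dvd' h.1 h.2)
  have hncd : ¬ (p ∣ c ∧ p ∣ d) := fun h => hp.not_isUnit (hcd.isUnit_of_dvd' h.1 h.2)
  rcases hp.dvd_or_dvd h0 with ha | hc
  · -- p ∣ a, so p ∤ b, so p ∣ d, so p ∤ c, but p ∣ b c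
    have hb : ¬ p ∣ b := fun hb => hnab ⟨ha, hb⟩
    have hd : p ∣ d := (hp.dvd_or_dvd h2).resolve_left hb
    have hc : ¬ p ∣ c := fun hc => hncd ⟨hc, hd⟩
    have : p ∣ b * c := by
      have := (dvd_add_right (ha.mul_right d)).mp h1
      exact this
    rcases hp.dvd_or_dvd this with h | h
    · exact hb h
    · exact hc h
  · have hd : ¬ p ∣ d := fun hd => hncd ⟨hc, hd⟩
    have hb : p ∣ b := (hp.dvd_or_dvd h2).resolve_right hd
    have ha : ¬ p ∣ a := fun ha => hnab ⟨ha, hb⟩
    have : p ∣ a * d := by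
      have := (dvd_add_left (hc.mul_left b)).mp h1
      exact this
    rcases hp.dvd_or_dvd this with h | h
    · exact ha h
    · exact hd h

/-- Height of a pair. -/
theorem s58p_H_pair (a b : k[X]) : s58p_H ![a, b] = max a.natDegree b.natDegree := by
  apply le_antisymm
  · apply s58p_H_le
    intro i
    fin_cases i <;> simp
  · apply max_le
    · exact s58p_natDegree_le_H ![a, b] 0
    · exact s58p_natDegree_le_H ![a, b] 1

/-- Exact additivity of the height under the symmetric product. -/
theorem s58p_H_sym2 {a b c d : k[X]} (hab : ![a, b] ≠ 0) (hcd : ![c, d] ≠ 0) :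
    s58p_H ![a * c, a * d + b * c, b * d] = s58p_H ![a, b] + s58p_H ![c, d] := by
  set m := s58p_H ![a, b] with hm
  set n := s58p_H ![c, d] with hn
  have ha : a.natDegree ≤ m := s58p_natDegree_le_H ![a, b] 0
  have hb : b.natDegree ≤ m := s58p_natDegree_le_H ![a, b] 1
  have hc : c.natDegree ≤ n := s58p_natDegree_le_H ![c, d] 0
  have hd : d.natDegree ≤ n := s58p_natDegree_le_H ![c, d] 1
  apply le_antisymm
  · apply s58p_H_le
    intro i
    fin_cases i
    · exact natDegree_mul_le.trans (add_le_add ha hc)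
    · refine (natDegree_add_le _ _).trans (max_le ?_ ?_)
      · exact natDegree_mul_le.trans (add_le_add ha hd)
      · exact natDegree_mul_le.trans (add_le_add hb hc)
    · exact natDegree_mul_le.trans (add_le_add hb hd)
  · -- leading coefficient vectors
    have hl1 := s58p_lead_ne_zero hab
    have hl2 := s58p_lead_ne_zero hcd
    set α := a.coeff m with hα
    set β := b.coeff m with hβ
    set γ := c.coeff n with hγ
    set δ := d.coeff n with hδ
    have h1 : ¬ (α = 0 ∧ β = 0) := by
      rintro ⟨h1, h2⟩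
      apply hl1
      funext i
      fin_cases i
      · simpa [s58p_lead] using h1
      · simpa [s58p_lead] using h2
    have h2 : ¬ (γ = 0 ∧ δ = 0) := by
      rintro ⟨h1, h2⟩
      apply hl2
      funext i
      fin_cases i
      · simpa [s58p_lead] using h1
      · simpa [s58p_lead] using h2
    have c0 : (a * c).coeff (m + n) = α * γ := coeff_mul_add_eq_of_natDegree_le ha hc
    have c1 : (a * d + b * c).coeff (m + n) = α * δ + β * γ := by
      rw [coeff_add, coeff_mul_add_eq_of_natDegree_le ha hd, coeff_mul_add_eq_of_natDegree_le hb hc]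
    have c2 : (b * d).coeff (m + n) = β * δ := coeff_mul_add_eq_of_natDegree_le hb hd
    -- some coefficient is nonzero
    by_cases hαγ : α * γ = 0
    · by_cases hβδ : β * δ = 0
      · have hne : α * δ + β * γ ≠ 0 := by
          rcases mul_eq_zero.mp hαγ with h | h
          · have hβ0 : β ≠ 0 := fun hβ0 => h1 ⟨h, hβ0⟩
            have hδ0 : δ = 0 := (mul_eq_zero.mp hβδ).resolve_left hβ0
            have hγ0 : γ ≠ 0 := fun hγ0 => h2 ⟨hγ0, hδ0⟩
            rw [h, hδ0]; simpa using mul_ne_zero hβ0 hγ0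
          · have hδ0 : δ ≠ 0 := fun hδ0 => h2 ⟨h, hδ0⟩
            have hβ0 : β = 0 := (mul_eq_zero.mp hβδ).resolve_right hδ0
            have hα0 : α ≠ 0 := fun hα0 => h1 ⟨hα0, hβ0⟩
            rw [h, hβ0]; simpa using mul_ne_zero hα0 hδ0
        calc m + n ≤ (a * d + b * c).natDegree := le_natDegree_of_ne_zero (c1 ▸ hne)
          _ ≤ _ := s58p_natDegree_le_H ![a * c, a * d + b * c, b * d] 1
      · calc m + n ≤ (b * d).natDegree := le_natDegree_of_ne_zero (c2 ▸ hβδ)
          _ ≤ _ := s58p_natDegree_le_H ![a * c, a * d + b * c, b * d] 2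
    · calc m + n ≤ (a * c).natDegree := le_natDegree_of_ne_zero (c0 ▸ hαγ)
        _ ≤ _ := s58p_natDegree_le_H ![a * c, a * d + b * c, b * d] 0

end Fermat.Agent.S58
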