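import Mathlib
import Fermat.Agent.S58.Par.Gauss

/-!
# S58 / [PAR] (P5): degree of a composition, polynomial form

For `A : k[X]` and `c d` in a commutative `k`-algebra, `s58p_hom n A c d = Σ_{i ≤ n} aᵢ cⁱ d^(n-i)`
(`= dⁿ A(c/d)` when this makes sense).  For coprime `A, B`, coprime `c, d` in `k[X]` and
`n = max (deg A) (deg B)` the pair `(s58p_hom n A c d, s58p_hom n B c d)` is coprime and has height
`n * max (deg c) (deg d)`.
-/

set_option autoImplicit false

namespace Fermat.Agent.S58

open Polynomial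

variable {k : Type*} [Field k]

/-- `Σ_{i ≤ n} aᵢ cⁱ d^(n-i)`: the degree-`n` homogenisation of `A`, evaluated at `(c, d)`. -/
noncomputable def s58p_hom {R : Type*} [CommRing R] [Algebra k R] (n : ℕ) (A : k[X]) (c d : R) : R :=
  ∑ i ∈ Finset.range (n + 1), algebraMap k R (A.coeff i) * c ^ i * d ^ (n - i)

theorem s58p_hom_map {R R' : Type*} [CommRing R] [Algebra k R] [CommRing R'] [Algebra k R']
    (f : R →+* R') (hf : ∀ a : k, f (algebraMap k R a) = algebraMap k R' a) (n : ℕ) (A : k[X])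
    (c d : R) : f (s58p_hom n A c d) = s58p_hom n A (f c) (f d) := by
  simp only [s58p_hom, map_sum, map_mul, map_pow, hf]

/-- `s58p_hom n A γ δ = δⁿ A(γ/δ)` in a field, if `δ ≠ 0` and `deg A ≤ n`. -/
theorem s58p_hom_eq_aeval {κ : Type*} [Field κ] [Algebra k κ] {n : ℕ} {A : k[X]}
    (hA : A.natDegree ≤ n) (γ : κ) {δ : κ} (hδ : δ ≠ 0) :
    s58p_hom n A γ δ = δ ^ n * aeval (γ / δ) A := by
  rw [aeval_eq_sum_range' (Nat.lt_succ_of_le hA), Finset.mul_sum]
  apply Finset.sum_congr rfl
  intro i hi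
  have hi' : i ≤ n := Nat.lt_succ_iff.mp (Finset.mem_range.mp hi)
  rw [Algebra.smul_def, div_pow]
  have : δ ^ n = δ ^ (n - i) * δ ^ i := by rw [← pow_add, Nat.sub_add_cancel hi']
  rw [this]
  field_simp

/-- `s58p_hom n A γ 0 = aₙ γⁿ`. -/
theorem s58p_hom_zero_right {R : Type*} [CommRing R] [Algebra k R] (n : ℕ) (A : k[X]) (γ : R) :
    s58p_hom n A γ 0 = algebraMap k R (A.coeff n) * γ ^ n := by
  unfold s58p_hom
  rw [Finset.sum_eq_single n]
  · simp
  · intro i hi hin
    have hi' : i < n := lt_of_le_of_ne (Nat.lt_succ_iff.mp (Finset.mem_range.mp hi)) hin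
    rw [zero_pow (Nat.sub_ne_zero_of_lt hi'), mul_zero]
  · intro h
    exact absurd (Finset.mem_range.mpr (Nat.lt_succ_self n)) h

/-- Coprime `A`, `B` of maximal degree `n`: the homogenisations have no common nontrivial zero. -/
theorem s58p_hom_ne_zero {κ : Type*} [Field κ] [Algebra k κ] {A B : k[X]} (hAB : IsCoprime A B)
    {n : ℕ} (hn : n = max A.natDegree B.natDegree) {γ δ : κ} (h : ¬(γ = 0 ∧ δ = 0)) :
    ¬(s58p_hom n A γ δ = 0 ∧ s58p_hom n B γ δ = 0) := by
  have hA : A.natDegree ≤ n := hn ▸ le_max_left _ _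
  have hB : B.natDegree ≤ n := hn ▸ le_max_right _ _
  rintro ⟨h1, h2⟩
  by_cases hδ : δ = 0
  · have hγ : γ ≠ 0 := fun hγ => h ⟨hγ, hδ⟩
    rw [hδ, s58p_hom_zero_right] at h1 h2
    have hinj : Function.Injective (algebraMap k κ) := (algebraMap k κ).injective
    have hAn : A.coeff n = 0 := by
      apply hinj
      rw [map_zero]
      exact (mul_eq_zero.mp h1).resolve_right (pow_ne_zero n hγ)
    have hBn : B.coeff n = 0 := by
      apply hinj
      rw [map_zero]
      exact (mul_eq_zero.mp h2).resolve_right (pow_ne_zero n hγ)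
    -- one of A, B has degree exactly n, so it vanishes; then n = 0 and the other vanishes too
    have hA0 : A.natDegree = n → A = 0 := fun hd => by
      rw [← hd] at hAn
      exact leadingCoeff_eq_zero.mp hAn
    have hB0 : B.natDegree = n → B = 0 := fun hd => by
      rw [← hd] at hBn
      exact leadingCoeff_eq_zero.mp hBn
    have hn0 : n = 0 := by
      rcases max_cases A.natDegree B.natDegree with ⟨hm, -⟩ | ⟨hm, -⟩
      · have := hA0 (by rw [hn, hm])
        rw [hn, hm, this, natDegree_zero]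
      · have := hB0 (by rw [hn, hm])
        rw [hn, hm, this, natDegree_zero]
    have hAz : A = 0 := by
      have hA' : A.natDegree ≤ 0 := hn0 ▸ hA
      have hc0 : A.coeff 0 = 0 := hn0 ▸ hAn
      rw [eq_C_of_natDegree_le_zero hA', hc0, C_0]
    have hBz : B = 0 := by
      have hB' : B.natDegree ≤ 0 := hn0 ▸ hB
      have hc0 : B.coeff 0 = 0 := hn0 ▸ hBn
      rw [eq_C_of_natDegree_le_zero hB', hc0, C_0]
    rw [hAz, hBz] at hAB
    exact not_isUnit_zero (isCoprime_zero_left.mp hAB)
  · rw [s58p_hom_eq_aeval hA γ hδ] at h1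
    rw [s58p_hom_eq_aeval hB γ hδ] at h2
    have e1 : aeval (γ / δ) A = 0 := (mul_eq_zero.mp h1).resolve_left (pow_ne_zero n hδ)
    have e2 : aeval (γ / δ) B = 0 := (mul_eq_zero.mp h2).resolve_left (pow_ne_zero n hδ)
    obtain ⟨U, V, hUV⟩ := hAB
    have := congrArg (aeval (γ / δ)) hUV
    rw [map_add, map_mul, map_mul, e1, e2, mul_zero, mul_zero, add_zero, map_one] at this
    exact zero_ne_one this

section poly

variable (n : ℕ) (A : k[X]) (c d : k[X]) (m : ℕ)

theorem s58p_natDegree_hom_le (hc : c.natDegree ≤ m) (hd : d.natDegree ≤ m) :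
    (s58p_hom n A c d).natDegree ≤ n * m := by
  unfold s58p_hom
  apply natDegree_sum_le_of_forall_le
  intro i hi
  have hi' : i ≤ n := Nat.lt_succ_iff.mp (Finset.mem_range.mp hi)
  rw [Polynomial.algebraMap_apply, Algebra.algebraMap_self_apply, mul_assoc]
  refine (natDegree_C_mul_le _ _).trans (natDegree_mul_le.trans ?_)
  have h1 : (c ^ i).natDegree ≤ i * m := natDegree_pow_le.trans (Nat.mul_le_mul_left i hc)
  have h2 : (d ^ (n - i)).natDegree ≤ (n - i) * m :=
    natDegree_pow_le.trans (Nat.mul_le_mul_left _ hd)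
  calc (c ^ i).natDegree + (d ^ (n - i)).natDegree ≤ i * m + (n - i) * m := add_le_add h1 h2
    _ = n * m := by rw [← Nat.add_mul, Nat.add_sub_cancel' hi']

theorem s58p_coeff_hom (hc : c.natDegree ≤ m) (hd : d.natDegree ≤ m) :
    (s58p_hom n A c d).coeff (n * m) = s58p_hom n A (c.coeff m) (d.coeff m) := by
  unfold s58p_hom
  rw [finsetSum_coeff]
  apply Finset.sum_congr rfl
  intro i hi
  have hi' : i ≤ n := Nat.lt_succ_iff.mp (Finset.mem_range.mp hi)
  have h1 : (c ^ i).natDegree ≤ i * m := natDegree_pow_le.trans (Nat.mul_le_mul_left i hc)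
  have h2 : (d ^ (n - i)).natDegree ≤ (n - i) * m :=
    natDegree_pow_le.trans (Nat.mul_le_mul_left _ hd)
  have hnm : n * m = i * m + (n - i) * m := by rw [← Nat.add_mul, Nat.add_sub_cancel' hi']
  rw [Polynomial.algebraMap_apply, Algebra.algebraMap_self_apply, mul_assoc, coeff_C_mul, hnm,
    coeff_mul_add_eq_of_natDegree_le h1 h2, coeff_pow_of_natDegree_le hc,
    coeff_pow_of_natDegree_le hd, mul_assoc]

end poly

/-- **(P5)**, height: the pair of homogenisations has height `n * max (deg c) (deg d)`. -/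
theorem s58p_H_hom {A B c d : k[X]} (hAB : IsCoprime A B) (hcd : ![c, d] ≠ 0) {n : ℕ}
    (hn : n = max A.natDegree B.natDegree) :
    max (s58p_hom n A c d).natDegree (s58p_hom n B c d).natDegree =
      n * max c.natDegree d.natDegree := by
  set m := max c.natDegree d.natDegree with hm
  have hc : c.natDegree ≤ m := le_max_left _ _
  have hd : d.natDegree ≤ m := le_max_right _ _
  apply le_antisymm
  · exact max_le (s58p_natDegree_hom_le n A c d m hc hd) (s58p_natDegree_hom_le n B c d m hc hd)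
  · have hl := s58p_lead_ne_zero hcd
    have hH : s58p_H ![c, d] = m := s58p_H_pair c d
    have hγδ : ¬(c.coeff m = 0 ∧ d.coeff m = 0) := by
      rintro ⟨h1, h2⟩
      apply hl
      funext i
      fin_cases i
      · simpa [s58p_lead, hH] using h1
      · simpa [s58p_lead, hH] using h2
    have hne := s58p_hom_ne_zero (κ := k) hAB hn hγδ
    rw [← s58p_coeff_hom n A c d m hc hd, ← s58p_coeff_hom n B c d m hc hd] at hne
    by_cases h1 : (s58p_hom n A c d).coeff (n * m) = 0
    · have h2 : (s58p_hom n B c d).coeff (n * m) ≠ 0 := fun h2 => hne ⟨h1, h2⟩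
      exact (le_natDegree_of_ne_zero h2).trans (le_max_right _ _)
    · exact (le_natDegree_of_ne_zero h1).trans (le_max_left _ _)

/-- **(P5)**, coprimality of the pair of homogenisations. -/
theorem s58p_coprime_hom {A B c d : k[X]} (hAB : IsCoprime A B) (hcd : IsCoprime c d) {n : ℕ}
    (hn : n = max A.natDegree B.natDegree) :
    IsCoprime (s58p_hom n A c d) (s58p_hom n B c d) := by
  have key : ∀ p : k[X], Prime p → p ∣ s58p_hom n A c d → ¬ p ∣ s58p_hom n B c d := by
    intro p hp h1 h2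
    have : Fact (Irreducible p) := ⟨hp.irreducible⟩
    have hf : ∀ a : k, (AdjoinRoot.mk p) (algebraMap k k[X] a) = algebraMap k (AdjoinRoot p) a := by
      intro a
      rw [Polynomial.algebraMap_apply, Algebra.algebraMap_self_apply, AdjoinRoot.mk_C,
        AdjoinRoot.algebraMap_eq]
    have e1 := s58p_hom_map (AdjoinRoot.mk p) hf n A c d
    have e2 := s58p_hom_map (AdjoinRoot.mk p) hf n B c d
    rw [AdjoinRoot.mk_eq_zero.mpr h1] at e1
    rw [AdjoinRoot.mk_eq_zero.mpr h2] at e2
    have hγδ : ¬(AdjoinRoot.mk p c = 0 ∧ AdjoinRoot.mk p d = 0) := by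
      rintro ⟨hc, hd⟩
      rw [AdjoinRoot.mk_eq_zero] at hc hd
      exact hp.not_isUnit (hcd.isUnit_of_dvd' hc hd)
    exact s58p_hom_ne_zero hAB hn hγδ ⟨e1.symm, e2.symm⟩
  apply isCoprime_of_prime_dvd _ key
  -- not both zero: X is prime
  rintro ⟨h1, h2⟩
  exact key X prime_X (h1 ▸ dvd_zero _) (h2 ▸ dvd_zero _)

end Fermat.Agent.S58
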