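import Mathlib

/-!
# S58 / [PAR] (P3): the addition-and-subtraction map does what it claims

For two points `P`, `Q` of a Weierstrass curve over a field,
`addSubMap W (sym2x P Q)` is a nonzero multiple of `sym2x (P + Q) (P - Q)`.
-/

set_option autoImplicit false
set_option linter.unusedSectionVars false

namespace Fermat.Agent.S58

open WeierstrassCurve WeierstrassCurve.Affine MvPolynomial

variable {F : Type*} [Field F] [DecidableEq F] (W : Affine F)

/-- The three quadratic forms of `addSubMap`, evaluated. -/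
theorem s58p_addSubMap_eval (v : Fin 3 → F) :
    (fun i => (addSubMap W i).eval v) =
      ![v 0 ^ 2 - W.b₄ * v 0 * v 2 - W.b₆ * v 1 * v 2 - W.b₈ * v 2 ^ 2,
        2 * v 1 * v 0 + W.b₂ * v 0 * v 2 + W.b₄ * v 1 * v 2 + W.b₆ * v 2 ^ 2,
        v 1 ^ 2 - 4 * v 0 * v 2] := by
  funext i
  fin_cases i <;> simp [addSubMap]

/-- Generic case, sum. -/
theorem s58p_generic_sum {x₁ y₁ x₂ y₂ : F} (h₁ : W.Equation x₁ y₁) (h₂ : W.Equation x₂ y₂)
    (hx : x₁ ≠ x₂) :
    (x₁ - x₂) ^ 2 * (W.addX x₁ x₂ (W.slope x₁ x₂ y₁ y₂) +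
        W.addX x₁ x₂ (W.slope x₁ x₂ y₁ (W.negY x₂ y₂))) =
      2 * (x₁ + x₂) * (x₁ * x₂) + W.b₂ * (x₁ * x₂) + W.b₄ * (x₁ + x₂) + W.b₆ := by
  rw [equation_iff] at h₁ h₂
  rw [slope_of_X_ne hx, slope_of_X_ne hx]
  have hD : x₁ - x₂ ≠ 0 := sub_ne_zero.mpr hx
  simp only [addX, negY, b₂, b₄, b₆]
  field_simp
  linear_combination 2 * h₁ + 2 * h₂

/-- Generic case, product. -/
theorem s58p_generic_prod {x₁ y₁ x₂ y₂ : F} (h₁ : W.Equation x₁ y₁) (h₂ : W.Equation x₂ y₂)
    (hx : x₁ ≠ x₂) :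
    (x₁ - x₂) ^ 2 * (W.addX x₁ x₂ (W.slope x₁ x₂ y₁ y₂) *
        W.addX x₁ x₂ (W.slope x₁ x₂ y₁ (W.negY x₂ y₂))) =
      (x₁ * x₂) ^ 2 - W.b₄ * (x₁ * x₂) - W.b₆ * (x₁ + x₂) - W.b₈ := by
  rw [equation_iff] at h₁ h₂
  rw [slope_of_X_ne hx, slope_of_X_ne hx]
  have hD : x₁ - x₂ ≠ 0 := sub_ne_zero.mpr hx
  simp only [addX, negY, b₄, b₆, b₈]
  field_simp
  linear_combination (W.a₁ ^ 2 * x₁ * x₂ - W.a₁ ^ 2 * x₂ ^ 2 + W.a₁ * W.a₃ * x₁ - W.a₁ * W.a₃ * x₂ + W.a₁ * x₁ * y₁ - 2 * W.a₁ * x₂ * y₂ - W.a₂ * x₁ ^ 2 + 4 * W.a₂ * x₁ * x₂ - 2 * W.a₂ * x₂ ^ 2 + W.a₃ * y₁ - 2 * W.a₃ * y₂ + W.a₄ * x₁ + W.a₆ - x₁ ^ 3 + 2 * x₁ ^ 2 * x₂ + 2 * x₁ * x₂ ^ 2 + y₁ ^ 2 - 2 * x₂ ^ 3 - 2 * y₂ ^ 2) * h₁ + (-W.a₁ ^ 2 * x₁ ^ 2 + W.a₁ ^ 2 * x₁ * x₂ - W.a₁ * W.a₃ * x₁ + W.a₁ * W.a₃ * x₂ + W.a₁ * x₂ * y₂ - 4 * W.a₂ * x₁ ^ 2 + 4 * W.a₂ * x₁ * x₂ - W.a₂ * x₂ ^ 2 + W.a₃ * y₂ - 2 * W.a₄ * x₁ + W.a₄ * x₂ - W.a₆ - 4 * x₁ ^ 3 + 2 * x₁ ^ 2 * x₂ + 2 * x₁ * x₂ ^ 2 - x₂ ^ 3 + y₂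 ^ 2) * h₂

/-- Doubling: `η² = 4x³ + b₂x² + 2b₄x + b₆`. -/
theorem s58p_dup_eta {x y : F} (h : W.Equation x y) :
    (y - W.negY x y) ^ 2 = 4 * x ^ 3 + W.b₂ * x ^ 2 + 2 * W.b₄ * x + W.b₆ := by
  rw [equation_iff] at h
  simp only [negY, b₂, b₄, b₆]
  linear_combination 4 * h

/-- Doubling: `η² x(2P) = x⁴ - b₄x² - 2b₆x - b₈`. -/
theorem s58p_dup_X {x y : F} (h : W.Equation x y) (hy : y ≠ W.negY x y) :
    (y - W.negY x y) ^ 2 * W.addX x x (W.slope x x y y) =
      x ^ 4 - W.b₄ * x ^ 2 - 2 * W.b₆ * x - W.b₈ := by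
  rw [equation_iff] at h
  rw [slope_of_Y_ne rfl hy]
  have hD : y - W.negY x y ≠ 0 := sub_ne_zero.mpr hy
  simp only [addX, negY, b₄, b₆, b₈] at hD ⊢
  field_simp
  linear_combination (-W.a₁ ^ 2 - 4 * W.a₂ - 8 * x) * h

/-- The doubling case of (P3). -/
theorem s58p_addSub_self [W.IsElliptic] (P : W.Point) :
    ∃ c : F, c ≠ 0 ∧
      ∀ i, (addSubMap W i).eval (P.sym2x P) = c * (P + P).sym2x 0 i := by
  have key : ∀ (v : Fin 3 → F) (i : Fin 3), (addSubMap W i).eval v = _ :=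
    fun v i => congrFun (s58p_addSubMap_eval W v) i
  rcases P with _ | ⟨x, y, h⟩
  · refine ⟨1, one_ne_zero, fun i => ?_⟩
    rw [← Point.zero_def, key, add_zero, Point.sym2x_zero_zero]
    fin_cases i <;> simp
  · have heta := s58p_dup_eta W h.1
    by_cases hy : y = W.negY x y
    · have h0 : (fun i => (addSubMap W i).eval ((Point.some x y h).sym2x (Point.some x y h))) ≠ 0 :=
        addSubMap_ne_zero W (Point.sym2x_ne_zero _ _)
      have hg1 : 4 * x ^ 3 + W.b₂ * x ^ 2 + 2 * W.b₄ * x + W.b₆ = 0 := by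
        rw [← heta, sub_eq_zero.mpr hy]; ring
      refine ⟨(x * x) ^ 2 - W.b₄ * (x * x) - W.b₆ * (x + x) - W.b₈, ?_, fun i => ?_⟩
      · intro hc
        apply h0
        funext i
        rw [key, Point.sym2x_some_some]
        fin_cases i
        · simp only [Fin.zero_eta, Fin.isValue, Matrix.cons_val_zero, Matrix.cons_val_one,
            Matrix.cons_val, mul_one, one_pow, Pi.zero_apply]
          linear_combination hc
        · simp only [Fin.mk_one, Fin.isValue, Matrix.cons_val_zero, Matrix.cons_val_one,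
            Matrix.cons_val, mul_one, one_pow, Pi.zero_apply]
          linear_combination hg1
        · simp only [Fin.reduceFinMk, Fin.isValue, Matrix.cons_val_zero, Matrix.cons_val_one,
            Matrix.cons_val, mul_one, one_pow, Pi.zero_apply]
          ring
      · rw [key, Point.add_self_of_Y_eq hy, Point.sym2x_some_some, Point.sym2x_zero_zero]
        fin_cases i
        · simp only [Fin.zero_eta, Fin.isValue, Matrix.cons_val_zero, Matrix.cons_val_one,
            Matrix.cons_val, mul_one, one_pow]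
        · simp only [Fin.mk_one, Fin.isValue, Matrix.cons_val_zero, Matrix.cons_val_one,
            Matrix.cons_val, mul_one, one_pow, mul_zero]
          linear_combination hg1
        · simp only [Fin.reduceFinMk, Fin.isValue, Matrix.cons_val_zero, Matrix.cons_val_one,
            Matrix.cons_val, mul_one, one_pow, mul_zero]
          ring
    · have hX := s58p_dup_X W h.1 hy
      refine ⟨(y - W.negY x y) ^ 2, pow_ne_zero 2 (sub_ne_zero.mpr hy), fun i => ?_⟩
      rw [key, Point.add_self_of_Y_ne hy, Point.sym2x_some_some, Point.sym2x_some_zero]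
      fin_cases i
      · simp only [Fin.zero_eta, Fin.isValue, Matrix.cons_val_zero, Matrix.cons_val_one,
          Matrix.cons_val, mul_one, one_pow]
        linear_combination -hX
      · simp only [Fin.mk_one, Fin.isValue, Matrix.cons_val_zero, Matrix.cons_val_one,
          Matrix.cons_val, mul_one, one_pow]
        linear_combination -heta
      · simp only [Fin.reduceFinMk, Fin.isValue, Matrix.cons_val_zero, Matrix.cons_val_one,
          Matrix.cons_val, mul_one, one_pow, mul_zero]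
        ring

/-- **(P3)** The addition-and-subtraction map does what it claims, in all cases. -/
theorem s58p_addSub [W.IsElliptic] (P Q : W.Point) :
    ∃ c : F, c ≠ 0 ∧
      ∀ i, (addSubMap W i).eval (P.sym2x Q) = c * (P + Q).sym2x (P - Q) i := by
  have key : ∀ (v : Fin 3 → F) (i : Fin 3), (addSubMap W i).eval v = _ :=
    fun v i => congrFun (s58p_addSubMap_eval W v) i
  rcases P with _ | ⟨x₁, y₁, h₁⟩ <;> rcases Q with _ | ⟨x₂, y₂, h₂⟩
  · refine ⟨1, one_ne_zero, fun i => ?_⟩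
    rw [← Point.zero_def, key, add_zero, sub_zero, Point.sym2x_zero_zero]
    fin_cases i <;> simp
  · refine ⟨1, one_ne_zero, fun i => ?_⟩
    rw [← Point.zero_def, key, zero_add, zero_sub, Point.sym2x_zero_some, Point.sym2x_neg_right,
      Point.sym2x_some_some]
    fin_cases i <;> simp <;> ring
  · refine ⟨1, one_ne_zero, fun i => ?_⟩
    rw [← Point.zero_def, key, add_zero, sub_zero, Point.sym2x_some_zero, Point.sym2x_some_some]
    fin_cases i <;> simp <;> ring
  · by_cases hx : x₁ = x₂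
    · rcases Point.X_eq_iff.mp hx with hPQ | hPQ
      · obtain ⟨c, hc, hci⟩ := s58p_addSub_self W (Point.some x₁ y₁ h₁)
        refine ⟨c, hc, fun i => ?_⟩
        rw [← hPQ, sub_self]
        exact hci i
      · obtain ⟨c, hc, hci⟩ := s58p_addSub_self W (Point.some x₂ y₂ h₂)
        refine ⟨c, hc, fun i => ?_⟩
        rw [hPQ, neg_add_cancel, Point.sym2x_neg_left, Point.sym2x_comm 0, ← neg_add',
          Point.sym2x_neg_left]
        exact hci i
    · refine ⟨(x₁ - x₂) ^ 2, pow_ne_zero 2 (sub_ne_zero.mpr hx), fun i => ?_⟩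
      have hadd := Point.add_of_X_ne (h₁ := h₁) (h₂ := h₂) hx
      have hsub : Point.some x₁ y₁ h₁ - Point.some x₂ y₂ h₂ =
          Point.some _ _ (nonsingular_add h₁ ((nonsingular_neg ..).mpr h₂)
            fun hxy => hx hxy.left) := by
        rw [sub_eq_add_neg, Point.neg_some]
        exact Point.add_of_X_ne (h₁ := h₁) (h₂ := (nonsingular_neg ..).mpr h₂) hx
      rw [key, hadd, hsub, Point.sym2x_some_some, Point.sym2x_some_some]
      have hs := s58p_generic_sum W h₁.1 h₂.1 hx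
      have hp := s58p_generic_prod W h₁.1 h₂.1 hx
      fin_cases i
      · simp only [Fin.zero_eta, Fin.isValue, Matrix.cons_val_zero, Matrix.cons_val_one,
          Matrix.cons_val, mul_one, one_pow]
        linear_combination -hp
      · simp only [Fin.mk_one, Fin.isValue, Matrix.cons_val_zero, Matrix.cons_val_one,
          Matrix.cons_val, mul_one, one_pow]
        linear_combination -hs
      · simp only [Fin.reduceFinMk, Fin.isValue, Matrix.cons_val_zero, Matrix.cons_val_one,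
          Matrix.cons_val, mul_one, one_pow]
        ring

end Fermat.Agent.S58
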