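import Mathlib
import Fermat.Agent.S58.Par.Gauss

/-!
# S58 / [PAR] (P2): the addition-and-subtraction map doubles the height

`W` an elliptic curve over a field `k`.  For a primitive nonzero vector `v : Fin 3 → k[X]` the
vector `s58p_g W v` (the three quadratic forms of `WeierstrassCurve.addSubMap`, evaluated at `v`)
is primitive and has height exactly `2 * s58p_H v`.
-/

set_option autoImplicit false

namespace Fermat.Agent.S58

open Polynomial WeierstrassCurve

/-- The three quadratic forms of `addSubMap`, evaluated (any commutative ring). -/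
theorem s58p_addSubMap_eval' {R : Type*} [CommRing R] (W : WeierstrassCurve R) (v : Fin 3 → R) :
    (fun i => (addSubMap W i).eval v) =
      ![v 0 ^ 2 - W.b₄ * v 0 * v 2 - W.b₆ * v 1 * v 2 - W.b₈ * v 2 ^ 2,
        2 * v 1 * v 0 + W.b₂ * v 0 * v 2 + W.b₄ * v 1 * v 2 + W.b₆ * v 2 ^ 2,
        v 1 ^ 2 - 4 * v 0 * v 2] := by
  funext i
  fin_cases i <;> simp [addSubMap]

variable {k : Type*} [Field k] (W : WeierstrassCurve k)

/-- The addition-and-subtraction map on polynomial vectors. -/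
noncomputable def s58p_g (v : Fin 3 → k[X]) : Fin 3 → k[X] :=
  ![v 0 ^ 2 - C W.b₄ * v 0 * v 2 - C W.b₆ * v 1 * v 2 - C W.b₈ * v 2 ^ 2,
    2 * v 1 * v 0 + C W.b₂ * v 0 * v 2 + C W.b₄ * v 1 * v 2 + C W.b₆ * v 2 ^ 2,
    v 1 ^ 2 - 4 * v 0 * v 2]

theorem s58p_g_eq_eval (v : Fin 3 → k[X]) :
    s58p_g W v = fun i => (addSubMap (W.map (C : k →+* k[X])) i).eval v := by
  rw [s58p_addSubMap_eval', map_b₂, map_b₄, map_b₆, map_b₈]
  rfl

theorem s58p_H_g_le (v : Fin 3 → k[X]) : s58p_H (s58p_g W v) ≤ 2 * s58p_H v := by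
  set M := s58p_H v with hM
  have h0 : (v 0).natDegree ≤ M := s58p_natDegree_le_H v 0
  have h1 : (v 1).natDegree ≤ M := s58p_natDegree_le_H v 1
  have h2 : (v 2).natDegree ≤ M := s58p_natDegree_le_H v 2
  have hmul : ∀ {p q : k[X]}, p.natDegree ≤ M → q.natDegree ≤ M → (p * q).natDegree ≤ 2 * M :=
    fun hp hq => natDegree_mul_le.trans (by omega)
  have hC : ∀ (c : k) {p : k[X]}, p.natDegree ≤ 2 * M → (C c * p).natDegree ≤ 2 * M :=
    fun c _ hp => (natDegree_C_mul_le c _).trans hp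
  have hn : ∀ (n : ℕ) {p : k[X]}, p.natDegree ≤ 2 * M → ((n : k[X]) * p).natDegree ≤ 2 * M := by
    intro n p hp
    rw [← C_eq_natCast]
    exact hC _ hp
  apply s58p_H_le
  intro i
  fin_cases i
  · show (v 0 ^ 2 - C W.b₄ * v 0 * v 2 - C W.b₆ * v 1 * v 2 - C W.b₈ * v 2 ^ 2).natDegree ≤ 2 * M
    refine (natDegree_sub_le _ _).trans (max_le ((natDegree_sub_le _ _).trans (max_le
      ((natDegree_sub_le _ _).trans (max_le ?_ ?_)) ?_)) ?_)
    · rw [pow_two]; exact hmul h0 h0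
    · rw [mul_assoc]; exact hC _ (hmul h0 h2)
    · rw [mul_assoc]; exact hC _ (hmul h1 h2)
    · rw [pow_two]; exact hC _ (hmul h2 h2)
  · show (2 * v 1 * v 0 + C W.b₂ * v 0 * v 2 + C W.b₄ * v 1 * v 2 + C W.b₆ * v 2 ^ 2).natDegree
      ≤ 2 * M
    refine (natDegree_add_le _ _).trans (max_le ((natDegree_add_le _ _).trans (max_le
      ((natDegree_add_le _ _).trans (max_le ?_ ?_)) ?_)) ?_)
    · rw [mul_assoc]; exact_mod_cast hn 2 (hmul h1 h0)
    · rw [mul_assoc]; exact hC _ (hmul h0 h2)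
    · rw [mul_assoc]; exact hC _ (hmul h1 h2)
    · rw [pow_two]; exact hC _ (hmul h2 h2)
  · show (v 1 ^ 2 - 4 * v 0 * v 2).natDegree ≤ 2 * M
    refine (natDegree_sub_le _ _).trans (max_le ?_ ?_)
    · rw [pow_two]; exact hmul h1 h1
    · rw [mul_assoc]; exact_mod_cast hn 4 (hmul h0 h2)

/-- Coefficients of `s58p_g W v` at twice the height. -/
theorem s58p_coeff_g (v : Fin 3 → k[X]) (i : Fin 3) :
    (s58p_g W v i).coeff (s58p_H v + s58p_H v) = (addSubMap W i).eval (s58p_lead v) := by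
  set M := s58p_H v with hM
  have h0 : (v 0).natDegree ≤ M := s58p_natDegree_le_H v 0
  have h1 : (v 1).natDegree ≤ M := s58p_natDegree_le_H v 1
  have h2 : (v 2).natDegree ≤ M := s58p_natDegree_le_H v 2
  have hmul : ∀ {p q : k[X]}, p.natDegree ≤ M → q.natDegree ≤ M →
      (p * q).coeff (M + M) = p.coeff M * q.coeff M :=
    fun hp hq => coeff_mul_add_eq_of_natDegree_le hp hq
  have hev := congrFun (s58p_addSubMap_eval' W (s58p_lead v)) i
  rw [hev]
  fin_cases i
  · show (v 0 ^ 2 - C W.b₄ * v 0 * v 2 - C W.b₆ * v 1 * v 2 - C W.b₈ * v 2 ^ 2).coeff (M + M) = _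
    simp only [coeff_sub, pow_two, mul_assoc, coeff_C_mul, hmul h0 h0, hmul h0 h2, hmul h1 h2,
      hmul h2 h2]
    simp [s58p_lead, ← hM]
  · show (2 * v 1 * v 0 + C W.b₂ * v 0 * v 2 + C W.b₄ * v 1 * v 2 + C W.b₆ * v 2 ^ 2).coeff
      (M + M) = _
    have h2c : (2 : k[X]) = C 2 := (map_ofNat C 2).symm
    simp only [h2c, coeff_add, pow_two, mul_assoc, coeff_C_mul, hmul h1 h0, hmul h0 h2, hmul h1 h2,
      hmul h2 h2]
    simp [s58p_lead, ← hM]
  · show (v 1 ^ 2 - 4 * v 0 * v 2).coeff (M + M) = _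
    have h4c : (4 : k[X]) = C 4 := (map_ofNat C 4).symm
    simp only [h4c, coeff_sub, pow_two, mul_assoc, coeff_C_mul, hmul h1 h1, hmul h0 h2]
    simp [s58p_lead, ← hM]

variable [W.IsElliptic]

/-- **(P2)**, height. -/
theorem s58p_H_g {v : Fin 3 → k[X]} (hv : v ≠ 0) : s58p_H (s58p_g W v) = 2 * s58p_H v := by
  apply le_antisymm (s58p_H_g_le W v)
  have hl : s58p_lead v ≠ 0 := s58p_lead_ne_zero hv
  have hne : (fun i => (addSubMap W i).eval (s58p_lead v)) ≠ 0 := addSubMap_ne_zero W hl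
  obtain ⟨i, hi⟩ : ∃ i, (addSubMap W i).eval (s58p_lead v) ≠ 0 := by
    by_contra hcon
    push Not at hcon
    exact hne (funext hcon)
  rw [← s58p_coeff_g] at hi
  calc 2 * s58p_H v = s58p_H v + s58p_H v := two_mul _
    _ ≤ (s58p_g W v i).natDegree := le_natDegree_of_ne_zero hi
    _ ≤ _ := s58p_natDegree_le_H _ i

/-- **(P2)**, primitivity. -/
theorem s58p_prim_g {v : Fin 3 → k[X]} (hv : s58p_Prim v) : s58p_Prim (s58p_g W v) := by
  apply s58p_prim_of_no_prime
  intro p hp hall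
  rw [s58p_g_eq_eval] at hall
  have hpv : ∀ i, p ∣ v i := by
    intro i
    have hcert := addSubMapCoeff_condition (W.map (C : k →+* k[X])) v i
    have : p ∣ v i ^ 4 := by
      rw [← hcert]
      exact Finset.dvd_sum fun j _ => (hall j).mul_left _
    exact hp.dvd_of_dvd_pow this
  exact hp.not_isUnit (hv p hpv)

end Fermat.Agent.S58
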