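import Mathlib
import Fermat.Agent.S58.Par.AddSub
import Fermat.Agent.S58.Par.Quad

/-!
# S58 / [PAR] (P4): the exact parallelogram law on the Kummer line

`W` an elliptic curve over a field `k`, `F` a field containing `k[X]` (hence `k(X)`).
A point `P` of `W` over `F` is *represented* by a coprime pair `(a, b)` of polynomials if its
projective `x`-coordinate is `(a : b)` (`s58p_Rep`).  If `P`, `Q`, `P + Q`, `P - Q` are
represented by `(a, b)`, `(c, d)`, `(a', b')`, `(c', d')` then

`max (deg a') (deg b') + max (deg c') (deg d') = 2 * max (deg a) (deg b) + 2 * max (deg c) (deg d)`.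
-/

set_option autoImplicit false
set_option linter.unusedSectionVars false

namespace Fermat.Agent.S58

open Polynomial WeierstrassCurve WeierstrassCurve.Affine

variable {k : Type*} [Field k] (W : WeierstrassCurve k)
  {F : Type*} [Field F] [Algebra k F] [Algebra k[X] F] [IsScalarTower k k[X] F]

/-- The projective `x`-coordinate of `P` is `(a : b)`, with `a`, `b` coprime polynomials. -/
def s58p_Rep (P : (W⁄F).Point) (a b : k[X]) : Prop :=
  IsCoprime a b ∧
    ∃ c : F, c ≠ 0 ∧ P.xRep = ![c * algebraMap k[X] F a, c * algebraMap k[X] F b]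

theorem s58p_rep_zero : s58p_Rep W (0 : (W⁄F).Point) 1 0 :=
  ⟨isCoprime_one_left, 1, one_ne_zero, by simp⟩

theorem s58p_rep_some {x y : F} (h : (W⁄F).toAffine.Nonsingular x y) {a b : k[X]}
    (hab : IsCoprime a b) (hb : algebraMap k[X] F b ≠ 0)
    (hx : x * algebraMap k[X] F b = algebraMap k[X] F a) :
    s58p_Rep W (Point.some x y h) a b := by
  refine ⟨hab, (algebraMap k[X] F b)⁻¹, inv_ne_zero hb, ?_⟩
  rw [Point.xRep_some, ← hx]
  congr 1
  · field_simp
  · rw [inv_mul_cancel₀ hb]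

theorem s58p_rep_neg {P : (W⁄F).Point} {a b : k[X]} (h : s58p_Rep W P a b) :
    s58p_Rep W (-P) a b := by
  obtain ⟨hab, c, hc, hP⟩ := h
  exact ⟨hab, c, hc, by rw [Point.xRep_neg, hP]⟩

theorem s58p_pair_ne_zero {a b : k[X]} (hab : IsCoprime a b) : ![a, b] ≠ 0 := by
  intro h
  have ha : a = 0 := by simpa using congrFun h 0
  have hb : b = 0 := by simpa using congrFun h 1
  rw [ha, hb] at hab
  exact not_isUnit_zero (isCoprime_zero_left.mp hab)

theorem s58p_prim_ne_zero {n : ℕ} {v : Fin n → k[X]} (hv : s58p_Prim v) : v ≠ 0 := by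
  intro h
  exact not_isUnit_zero (hv 0 fun i => by rw [h]; exact dvd_zero _)

/-- The symmetric product of two representations. -/
theorem s58p_sym2x_rep {P Q : (W⁄F).Point} {a b c d : k[X]} (hP : s58p_Rep W P a b)
    (hQ : s58p_Rep W Q c d) :
    ∃ e : F, e ≠ 0 ∧ ∀ i, P.sym2x Q i =
      e * algebraMap k[X] F (![a * c, a * d + b * c, b * d] i) := by
  obtain ⟨-, cP, hcP, hPx⟩ := hP
  obtain ⟨-, cQ, hcQ, hQx⟩ := hQ
  refine ⟨cP * cQ, mul_ne_zero hcP hcQ, fun i => ?_⟩
  simp only [Point.sym2x, hPx, hQx]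
  fin_cases i <;> simp <;> ring

/-- Compatibility of the addition-and-subtraction map with `k[X] → F`. -/
theorem s58p_eval_map (v : Fin 3 → k[X]) (e : F) (i : Fin 3) :
    (addSubMap (W⁄F) i).eval (fun j => e * algebraMap k[X] F (v j)) =
      e ^ 2 * algebraMap k[X] F (s58p_g W v i) := by
  have hC : ∀ r : k, algebraMap k F r = algebraMap k[X] F (C r) := fun r => by
    rw [IsScalarTower.algebraMap_apply k k[X] F, Polynomial.algebraMap_apply,
      Algebra.algebraMap_self_apply]
  have hev := congrFun (s58p_addSubMap_eval' (W⁄F) (fun j => e * algebraMap k[X] F (v j))) i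
  rw [hev]
  have hb₂ : (W⁄F).b₂ = algebraMap k[X] F (C W.b₂) := by rw [← hC]; exact map_b₂ W _
  have hb₄ : (W⁄F).b₄ = algebraMap k[X] F (C W.b₄) := by rw [← hC]; exact map_b₄ W _
  have hb₆ : (W⁄F).b₆ = algebraMap k[X] F (C W.b₆) := by rw [← hC]; exact map_b₆ W _
  have hb₈ : (W⁄F).b₈ = algebraMap k[X] F (C W.b₈) := by rw [← hC]; exact map_b₈ W _
  rw [hb₂, hb₄, hb₆, hb₈]
  fin_cases i
  · show _ = e ^ 2 * algebraMap k[X] F
      (v 0 ^ 2 - C W.b₄ * v 0 * v 2 - C W.b₆ * v 1 * v 2 - C W.b₈ * v 2 ^ 2)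
    simp only [map_sub, map_mul, map_pow, Fin.zero_eta, Fin.isValue, Matrix.cons_val_zero]
    ring
  · show _ = e ^ 2 * algebraMap k[X] F
      (2 * v 1 * v 0 + C W.b₂ * v 0 * v 2 + C W.b₄ * v 1 * v 2 + C W.b₆ * v 2 ^ 2)
    simp only [map_add, map_mul, map_pow, map_ofNat, Fin.mk_one, Fin.isValue,
      Matrix.cons_val_one, Matrix.cons_val_zero]
    ring
  · show _ = e ^ 2 * algebraMap k[X] F (v 1 ^ 2 - 4 * v 0 * v 2)
    simp only [map_sub, map_mul, map_pow, map_ofNat, Fin.reduceFinMk, Fin.isValue,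
      Matrix.cons_val]
    ring

variable [DecidableEq F] [W.IsElliptic]

/-- **(P4)** The exact parallelogram law on the Kummer line. -/
theorem s58p_parallelogram (hinj : Function.Injective (algebraMap k[X] F))
    {P Q : (W⁄F).Point} {a b c d a' b' c' d' : k[X]}
    (hP : s58p_Rep W P a b) (hQ : s58p_Rep W Q c d)
    (hS : s58p_Rep W (P + Q) a' b') (hD : s58p_Rep W (P - Q) c' d') :
    max a'.natDegree b'.natDegree + max c'.natDegree d'.natDegree =
      2 * max a.natDegree b.natDegree + 2 * max c.natDegree d.natDegree := by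
  have : (W⁄F).IsElliptic := inferInstanceAs (W.map (algebraMap k F)).IsElliptic
  set v : Fin 3 → k[X] := ![a * c, a * d + b * c, b * d] with hv
  set v' : Fin 3 → k[X] := ![a' * c', a' * d' + b' * c', b' * d'] with hv'
  obtain ⟨e, he, hev⟩ := s58p_sym2x_rep W hP hQ
  obtain ⟨e', he', hev'⟩ := s58p_sym2x_rep W hS hD
  obtain ⟨c₃, hc₃, h₃⟩ := s58p_addSub (W⁄F).toAffine P Q
  have hvprim : s58p_Prim v := s58p_prim_sym2 hP.1 hQ.1
  have hv'prim : s58p_Prim v' := s58p_prim_sym2 hS.1 hD.1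
  have hgprim : s58p_Prim (s58p_g W v) := s58p_prim_g W hvprim
  -- the key proportionality
  have hprop : ∀ i, e ^ 2 * algebraMap k[X] F (s58p_g W v i) =
      c₃ * (e' * algebraMap k[X] F (v' i)) := by
    intro i
    have hfun : (fun j => e * algebraMap k[X] F (v j)) = P.sym2x Q :=
      funext fun j => (hev j).symm
    rw [← s58p_eval_map, ← hev' i, ← h₃ i, hfun]
  have hcross : ∀ i j, s58p_g W v i * v' j = s58p_g W v j * v' i := by
    intro i j
    apply hinj
    have hi := hprop i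
    have hj := hprop j
    have he2 : e ^ 2 ≠ 0 := pow_ne_zero 2 he
    rw [map_mul, map_mul]
    apply mul_left_cancel₀ he2
    calc e ^ 2 * (algebraMap k[X] F (s58p_g W v i) * algebraMap k[X] F (v' j))
        = (e ^ 2 * algebraMap k[X] F (s58p_g W v i)) * algebraMap k[X] F (v' j) := by ring
      _ = (e ^ 2 * algebraMap k[X] F (s58p_g W v j)) * algebraMap k[X] F (v' i) := by
          rw [hi, hj]; ring
      _ = e ^ 2 * (algebraMap k[X] F (s58p_g W v j) * algebraMap k[X] F (v' i)) := by ring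
  have hdeg : ∀ i, (s58p_g W v i).natDegree = (v' i).natDegree :=
    s58p_natDegree_eq_of_prop hgprim hv'prim hcross
  have hH : s58p_H (s58p_g W v) = s58p_H v' := by
    unfold s58p_H
    congr 1
    funext i
    exact hdeg i
  have h1 : s58p_H (s58p_g W v) = 2 * s58p_H v := s58p_H_g W (s58p_prim_ne_zero hvprim)
  have h2 : s58p_H v = s58p_H ![a, b] + s58p_H ![c, d] :=
    s58p_H_sym2 (s58p_pair_ne_zero hP.1) (s58p_pair_ne_zero hQ.1)
  have h3 : s58p_H v' = s58p_H ![a', b'] + s58p_H ![c', d'] :=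
    s58p_H_sym2 (s58p_pair_ne_zero hS.1) (s58p_pair_ne_zero hD.1)
  rw [← s58p_H_pair, ← s58p_H_pair, ← s58p_H_pair, ← s58p_H_pair, ← h3, ← hH, h1, h2]
  ring

end Fermat.Agent.S58
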