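import Mathlib
import Fermat.Agent.S58.Par.Main

/-!
# S58 / [PAR]: the degree function on points with `x`-coordinate in `k(X)`

`s58p_IsRat W P`: the projective `x`-coordinate of `P` is `(a : b)` for coprime polynomials;
`s58p_deg W P = max (deg a) (deg b)` (and `0` if `P` is not of this form).
`s58p_parallelogram_deg`: the exact parallelogram law for `s58p_deg`.
-/

set_option autoImplicit false
set_option linter.unusedSectionVars false

namespace Fermat.Agent.S58

open Polynomial WeierstrassCurve WeierstrassCurve.Affine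

variable {k : Type*} [Field k] (W : WeierstrassCurve k)
  {F : Type*} [Field F] [Algebra k F] [Algebra k[X] F] [IsScalarTower k k[X] F]

/-- The `x`-coordinate of `P` lies in `k(X)` (or `P = 0`). -/
def s58p_IsRat (P : (W⁄F).Point) : Prop := ∃ a b : k[X], s58p_Rep W P a b

open Classical in
/-- The degree of the `x`-coordinate of `P` as a rational function of `X`. -/
noncomputable def s58p_deg (P : (W⁄F).Point) : ℕ :=
  if h : s58p_IsRat W P then
    max h.choose.natDegree h.choose_spec.choose.natDegree
  else 0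

theorem s58p_prim_pair {a b : k[X]} (hab : IsCoprime a b) : s58p_Prim ![a, b] := by
  intro r hr
  exact hab.isUnit_of_dvd' (by simpa using hr 0) (by simpa using hr 1)

/-- Two representations of the same point have the same degrees. -/
theorem s58p_rep_unique (hinj : Function.Injective (algebraMap k[X] F)) {P : (W⁄F).Point}
    {a b a' b' : k[X]} (h : s58p_Rep W P a b) (h' : s58p_Rep W P a' b') :
    a.natDegree = a'.natDegree ∧ b.natDegree = b'.natDegree := by
  obtain ⟨hab, c, hc, hP⟩ := h
  obtain ⟨hab', c', hc', hP'⟩ := h'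
  have h0 : c * algebraMap k[X] F a = c' * algebraMap k[X] F a' := by
    have := congrFun (hP.symm.trans hP') 0
    simpa using this
  have h1 : c * algebraMap k[X] F b = c' * algebraMap k[X] F b' := by
    have := congrFun (hP.symm.trans hP') 1
    simpa using this
  have hcross : a * b' = b * a' := by
    apply hinj
    rw [map_mul, map_mul]
    apply mul_left_cancel₀ (mul_ne_zero hc hc')
    calc c * c' * (algebraMap k[X] F a * algebraMap k[X] F b')
        = (c * algebraMap k[X] F a) * (c' * algebraMap k[X] F b') := by ring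
      _ = (c' * algebraMap k[X] F a') * (c * algebraMap k[X] F b) := by rw [h0, h1]
      _ = c * c' * (algebraMap k[X] F b * algebraMap k[X] F a') := by ring
  have hprop : ∀ i j, (![a, b] : Fin 2 → k[X]) i * (![a', b'] : Fin 2 → k[X]) j =
      (![a, b] : Fin 2 → k[X]) j * (![a', b'] : Fin 2 → k[X]) i := by
    intro i j
    fin_cases i <;> fin_cases j <;> simp
    · exact hcross
    · exact hcross.symm
  have := s58p_natDegree_eq_of_prop (s58p_prim_pair hab) (s58p_prim_pair hab') hprop
  exact ⟨by simpa using this 0, by simpa using this 1⟩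

theorem s58p_deg_eq (hinj : Function.Injective (algebraMap k[X] F)) {P : (W⁄F).Point}
    {a b : k[X]} (h : s58p_Rep W P a b) :
    s58p_deg W P = max a.natDegree b.natDegree := by
  have hr : s58p_IsRat W P := ⟨a, b, h⟩
  unfold s58p_deg
  rw [dif_pos hr]
  obtain ⟨h1, h2⟩ := s58p_rep_unique W hinj hr.choose_spec.choose_spec h
  rw [h1, h2]

theorem s58p_isRat_zero : s58p_IsRat W (0 : (W⁄F).Point) := ⟨1, 0, s58p_rep_zero W⟩

theorem s58p_deg_zero (hinj : Function.Injective (algebraMap k[X] F)) :
    s58p_deg W (0 : (W⁄F).Point) = 0 := by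
  rw [s58p_deg_eq W hinj (s58p_rep_zero W)]
  simp

theorem s58p_isRat_neg {P : (W⁄F).Point} (h : s58p_IsRat W P) : s58p_IsRat W (-P) := by
  obtain ⟨a, b, hab⟩ := h
  exact ⟨a, b, s58p_rep_neg W hab⟩

theorem s58p_deg_neg (hinj : Function.Injective (algebraMap k[X] F)) {P : (W⁄F).Point}
    (h : s58p_IsRat W P) : s58p_deg W (-P) = s58p_deg W P := by
  obtain ⟨a, b, hab⟩ := h
  rw [s58p_deg_eq W hinj hab, s58p_deg_eq W hinj (s58p_rep_neg W hab)]

/-- The generic point: `x = X`. -/
theorem s58p_deg_generic (hinj : Function.Injective (algebraMap k[X] F)) {y : F}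
    (h : (W⁄F).toAffine.Nonsingular (algebraMap k[X] F X) y) :
    s58p_IsRat W (Point.some _ y h) ∧ s58p_deg W (Point.some _ y h) = 1 := by
  have hrep : s58p_Rep W (Point.some _ y h) X 1 :=
    s58p_rep_some W h isCoprime_one_right (by simp) (by simp)
  refine ⟨⟨X, 1, hrep⟩, ?_⟩
  rw [s58p_deg_eq W hinj hrep]
  simp

variable [DecidableEq F] [W.IsElliptic]

/-- **The exact parallelogram law** for the degree on the Kummer line. -/
theorem s58p_parallelogram_deg (hinj : Function.Injective (algebraMap k[X] F))
    {P Q : (W⁄F).Point} (hP : s58p_IsRat W P) (hQ : s58p_IsRat W Q)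
    (hS : s58p_IsRat W (P + Q)) (hD : s58p_IsRat W (P - Q)) :
    s58p_deg W (P + Q) + s58p_deg W (P - Q) = 2 * s58p_deg W P + 2 * s58p_deg W Q := by
  obtain ⟨a, b, hab⟩ := hP
  obtain ⟨c, d, hcd⟩ := hQ
  obtain ⟨a', b', hab'⟩ := hS
  obtain ⟨c', d', hcd'⟩ := hD
  rw [s58p_deg_eq W hinj hab, s58p_deg_eq W hinj hcd, s58p_deg_eq W hinj hab',
    s58p_deg_eq W hinj hcd']
  exact s58p_parallelogram W hinj hab hcd hab' hcd'

end Fermat.Agent.S58
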