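import Mathlib
import Fermat.Agent.S58.Par.Deg
import Fermat.Agent.S58.Par.Comp

/-!
# S58 / [PAR]: the same notions for an arbitrary presentation of the curve over `F`

`s58p_Rep`, `s58p_IsRat`, `s58p_deg` only depend on the `x`-coordinate of the point; here they are
restated for points of an arbitrary `WF : WeierstrassCurve F` (suffix `A`), and the parallelogram
law is stated under a hypothesis `WF = W⁄F` (`W` over the constant field `k`), so that it can be
used e.g. for `WF = W'⁄F` with `W'` over a smaller field and `W = W'⁄k`.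
-/

set_option autoImplicit false
set_option linter.unusedSectionVars false

namespace Fermat.Agent.S58

open Polynomial WeierstrassCurve WeierstrassCurve.Affine

variable {k : Type*} [Field k]
  {F : Type*} [Field F] [Algebra k[X] F] {WF : WeierstrassCurve F}

/-- The projective `x`-coordinate of `P` is `(a : b)`, with `a`, `b` coprime polynomials. -/
def s58p_RepA (P : WF.toAffine.Point) (a b : k[X]) : Prop :=
  IsCoprime a b ∧
    ∃ c : F, c ≠ 0 ∧ P.xRep = ![c * algebraMap k[X] F a, c * algebraMap k[X] F b]

/-- The `x`-coordinate of `P` lies in `k(X)` (or `P = 0`). -/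
def s58p_IsRatA (P : WF.toAffine.Point) : Prop := ∃ a b : k[X], s58p_RepA P a b

open Classical in
/-- The degree of the `x`-coordinate of `P` as a rational function of `X`. -/
noncomputable def s58p_degA (P : WF.toAffine.Point) : ℕ :=
  if h : s58p_IsRatA (k := k) P then
    max h.choose.natDegree h.choose_spec.choose.natDegree
  else 0

theorem s58p_repA_zero : s58p_RepA (k := k) (0 : WF.toAffine.Point) 1 0 :=
  ⟨isCoprime_one_left, 1, one_ne_zero, by simp⟩

theorem s58p_repA_some {x y : F} (h : WF.toAffine.Nonsingular x y) {a b : k[X]}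
    (hab : IsCoprime a b) (hb : algebraMap k[X] F b ≠ 0)
    (hx : x * algebraMap k[X] F b = algebraMap k[X] F a) :
    s58p_RepA (Point.some x y h) a b := by
  refine ⟨hab, (algebraMap k[X] F b)⁻¹, inv_ne_zero hb, ?_⟩
  rw [Point.xRep_some, ← hx]
  congr 1
  · field_simp
  · rw [inv_mul_cancel₀ hb]

/-- An affine point with a representation: its `x`-coordinate is `a / b`. -/
theorem s58p_repA_some_iff {x y : F}
    (h : WF.toAffine.Nonsingular x y) {a b : k[X]} (hr : s58p_RepA (Point.some x y h) a b) :
    b ≠ 0 ∧ x * algebraMap k[X] F b = algebraMap k[X] F a := by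
  obtain ⟨-, c, hc, hP⟩ := hr
  rw [Point.xRep_some] at hP
  have h0 : x = c * algebraMap k[X] F a := by simpa using congrFun hP 0
  have h1 : (1 : F) = c * algebraMap k[X] F b := by simpa using congrFun hP 1
  refine ⟨?_, ?_⟩
  · rintro rfl
    rw [map_zero, mul_zero] at h1
    exact one_ne_zero h1
  · rw [h0, mul_assoc, mul_comm (algebraMap k[X] F a), ← mul_assoc, ← h1, one_mul]

/-- The point `0` is only represented by `(unit : 0)`. -/
theorem s58p_repA_zero_iff (hinj : Function.Injective (algebraMap k[X] F)) {a b : k[X]}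
    (hr : s58p_RepA (0 : WF.toAffine.Point) a b) : b = 0 := by
  obtain ⟨-, c, hc, hP⟩ := hr
  rw [Point.xRep_zero] at hP
  have h1 : (0 : F) = c * algebraMap k[X] F b := by simpa using congrFun hP 1
  have := (mul_eq_zero.mp h1.symm).resolve_left hc
  exact hinj (by rw [this, map_zero])

theorem s58p_repA_neg {P : WF.toAffine.Point} {a b : k[X]} (h : s58p_RepA P a b) :
    s58p_RepA (-P) a b := by
  obtain ⟨hab, c, hc, hP⟩ := h
  exact ⟨hab, c, hc, by rw [Point.xRep_neg, hP]⟩

/-- Two representations of the same point have the same degrees. -/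
theorem s58p_repA_unique (hinj : Function.Injective (algebraMap k[X] F)) {P : WF.toAffine.Point}
    {a b a' b' : k[X]} (h : s58p_RepA P a b) (h' : s58p_RepA P a' b') :
    a.natDegree = a'.natDegree ∧ b.natDegree = b'.natDegree := by
  obtain ⟨hab, c, hc, hP⟩ := h
  obtain ⟨hab', c', hc', hP'⟩ := h'
  have h0 : c * algebraMap k[X] F a = c' * algebraMap k[X] F a' := by
    have := congrFun (hP.symm.trans hP') 0
    simpa using this
  have h1 : c * algebraMap k[X] F b = c' * algebraMap k[X] F b' := by
    have := congrFun (hP.symm.trans hP') 1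
    simpa using this
  have hcross : a * b' = b * a' := by
    apply hinj
    rw [map_mul, map_mul]
    apply mul_left_cancel₀ (mul_ne_zero hc hc')
    calc c * c' * (algebraMap k[X] F a * algebraMap k[X] F b')
        = (c * algebraMap k[X] F a) * (c' * algebraMap k[X] F b') := by ring
      _ = (c' * algebraMap k[X] F a') * (c * algebraMap k[X] F b) := by rw [h0, h1]
      _ = c * c' * (algebraMap k[X] F b * algebraMap k[X] F a') := by ring
  have hprop : ∀ i j, (![a, b] : Fin 2 → k[X]) i * (![a', b'] : Fin 2 → k[X]) j =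
      (![a, b] : Fin 2 → k[X]) j * (![a', b'] : Fin 2 → k[X]) i := by
    intro i j
    fin_cases i <;> fin_cases j <;> simp
    · exact hcross
    · exact hcross.symm
  have := s58p_natDegree_eq_of_prop (s58p_prim_pair hab) (s58p_prim_pair hab') hprop
  exact ⟨by simpa using this 0, by simpa using this 1⟩

theorem s58p_degA_eq (hinj : Function.Injective (algebraMap k[X] F)) {P : WF.toAffine.Point}
    {a b : k[X]} (h : s58p_RepA P a b) :
    s58p_degA (k := k) P = max a.natDegree b.natDegree := by
  have hr : s58p_IsRatA (k := k) P := ⟨a, b, h⟩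
  unfold s58p_degA
  rw [dif_pos hr]
  obtain ⟨h1, h2⟩ := s58p_repA_unique hinj hr.choose_spec.choose_spec h
  rw [h1, h2]

theorem s58p_isRatA_zero : s58p_IsRatA (k := k) (0 : WF.toAffine.Point) :=
  ⟨1, 0, s58p_repA_zero⟩

theorem s58p_degA_zero (hinj : Function.Injective (algebraMap k[X] F)) :
    s58p_degA (k := k) (0 : WF.toAffine.Point) = 0 := by
  rw [s58p_degA_eq hinj s58p_repA_zero]
  simp

theorem s58p_isRatA_neg {P : WF.toAffine.Point} (h : s58p_IsRatA (k := k) P) :
    s58p_IsRatA (k := k) (-P) := by
  obtain ⟨a, b, hab⟩ := h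
  exact ⟨a, b, s58p_repA_neg hab⟩

theorem s58p_degA_neg (hinj : Function.Injective (algebraMap k[X] F)) {P : WF.toAffine.Point}
    (h : s58p_IsRatA (k := k) P) : s58p_degA (k := k) (-P) = s58p_degA (k := k) P := by
  obtain ⟨a, b, hab⟩ := h
  rw [s58p_degA_eq hinj hab, s58p_degA_eq hinj (s58p_repA_neg hab)]

variable [Algebra k F] [IsScalarTower k k[X] F] [DecidableEq F]

/-- **The exact parallelogram law**, for an arbitrary presentation `WF = W⁄F` of the curve. -/
theorem s58p_parallelogram_any (W : WeierstrassCurve k) [W.IsElliptic] (hW : WF = W⁄F)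
    (hinj : Function.Injective (algebraMap k[X] F))
    {P Q : WF.toAffine.Point} (hP : s58p_IsRatA (k := k) P) (hQ : s58p_IsRatA (k := k) Q)
    (hS : s58p_IsRatA (k := k) (P + Q)) (hD : s58p_IsRatA (k := k) (P - Q)) :
    s58p_degA (k := k) (P + Q) + s58p_degA (k := k) (P - Q) =
      2 * s58p_degA (k := k) P + 2 * s58p_degA (k := k) Q := by
  subst hW
  exact s58p_parallelogram_deg W hinj hP hQ hS hD

end Fermat.Agent.S58
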