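import Mathlib
import Fermat.Agent.S58.Par.Comp
import Fermat.Agent.S58.Par.Deg

/-!
# S58 / [PAR]: `RatFunc` forms

* `s58p_rdeg r = max (deg num) (deg denom)` for `r : RatFunc k`;
* `s58p_rdeg_div`: any coprime representation computes it;
* `s58p_rdeg_X`, `s58p_rdeg_pow`, `s58p_rdeg_comp` (degree of a composition `R ∘ S`, written as
  `aeval S R.num / aeval S R.denom`);
* `s58p_xdeg` and `s58p_parallelogram_xdeg`: the parallelogram law for points of `W` over a field
  `F ⊇ k(X)` whose `x`-coordinates lie in `k(X)`.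
-/

set_option autoImplicit false
set_option linter.unusedSectionVars false
set_option linter.style.haveILetI false

namespace Fermat.Agent.S58

open Polynomial WeierstrassCurve WeierstrassCurve.Affine

variable {k : Type*} [Field k]

/-- The degree of a rational function. -/
noncomputable def s58p_rdeg (r : RatFunc k) : ℕ := max r.num.natDegree r.denom.natDegree

theorem s58p_rdeg_div {a b : k[X]} (hab : IsCoprime a b) (hb : b ≠ 0) :
    s58p_rdeg (algebraMap k[X] (RatFunc k) a / algebraMap k[X] (RatFunc k) b) =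
      max a.natDegree b.natDegree := by
  set r := algebraMap k[X] (RatFunc k) a / algebraMap k[X] (RatFunc k) b with hr
  have hιb : algebraMap k[X] (RatFunc k) b ≠ 0 := RatFunc.algebraMap_ne_zero hb
  have hιd : algebraMap k[X] (RatFunc k) r.denom ≠ 0 := RatFunc.algebraMap_ne_zero r.denom_ne_zero
  have hcross : r.num * b = r.denom * a := by
    apply RatFunc.algebraMap_injective k
    have h := RatFunc.num_div_denom r
    rw [hr, div_eq_div_iff hιd hιb] at h
    rw [map_mul, map_mul, h]
    ring
  have hprop : ∀ i j, (![r.num, r.denom] : Fin 2 → k[X]) i * (![a, b] : Fin 2 → k[X]) j =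
      (![r.num, r.denom] : Fin 2 → k[X]) j * (![a, b] : Fin 2 → k[X]) i := by
    intro i j
    fin_cases i <;> fin_cases j <;> simp
    · exact hcross
    · exact hcross.symm
  have := s58p_natDegree_eq_of_prop (s58p_prim_pair (RatFunc.isCoprime_num_denom r))
    (s58p_prim_pair hab) hprop
  unfold s58p_rdeg
  have h0 : r.num.natDegree = a.natDegree := by simpa using this 0
  have h1 : r.denom.natDegree = b.natDegree := by simpa using this 1
  rw [h0, h1]

theorem s58p_rdeg_zero : s58p_rdeg (0 : RatFunc k) = 0 := by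
  simp [s58p_rdeg]

theorem s58p_rdeg_X : s58p_rdeg (RatFunc.X : RatFunc k) = 1 := by
  have := s58p_rdeg_div (k := k) (a := X) (b := 1) isCoprime_one_right one_ne_zero
  rw [map_one, div_one, RatFunc.algebraMap_X] at this
  rw [this]
  simp

theorem s58p_rdeg_pow (r : RatFunc k) (n : ℕ) : s58p_rdeg (r ^ n) = n * s58p_rdeg r := by
  have h := RatFunc.num_div_denom r
  have hpow : r ^ n = algebraMap k[X] (RatFunc k) (r.num ^ n) /
      algebraMap k[X] (RatFunc k) (r.denom ^ n) := by
    rw [map_pow, map_pow, ← div_pow, h]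
  rw [hpow, s58p_rdeg_div ((RatFunc.isCoprime_num_denom r).pow) (pow_ne_zero n r.denom_ne_zero),
    natDegree_pow, natDegree_pow]
  unfold s58p_rdeg
  exact (Nat.mul_max_mul_left n _ _)

/-- **Degree of a composition** `R ∘ S = R.num(S) / R.denom(S)`. -/
theorem s58p_rdeg_comp (R S : RatFunc k) :
    s58p_rdeg (aeval S R.num / aeval S R.denom) = s58p_rdeg R * s58p_rdeg S := by
  set A := R.num with hA
  set B := R.denom with hB
  set c := S.num with hc
  set d := S.denom with hd
  set n := max A.natDegree B.natDegree with hn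
  have hAB : IsCoprime A B := RatFunc.isCoprime_num_denom R
  have hcd : IsCoprime c d := RatFunc.isCoprime_num_denom S
  have hιd : algebraMap k[X] (RatFunc k) d ≠ 0 := RatFunc.algebraMap_ne_zero S.denom_ne_zero
  have hS : algebraMap k[X] (RatFunc k) c / algebraMap k[X] (RatFunc k) d = S :=
    RatFunc.num_div_denom S
  have hf : ∀ a : k, (algebraMap k[X] (RatFunc k)) (algebraMap k k[X] a) =
      algebraMap k (RatFunc k) a := fun a =>
    (IsScalarTower.algebraMap_apply k k[X] (RatFunc k) a).symm
  have e : ∀ G : k[X], G.natDegree ≤ n → aeval S G =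
      algebraMap k[X] (RatFunc k) (s58p_hom n G c d) / algebraMap k[X] (RatFunc k) d ^ n := by
    intro G hG
    rw [s58p_hom_map (algebraMap k[X] (RatFunc k)) hf, s58p_hom_eq_aeval hG _ hιd, hS,
      mul_div_cancel_left₀ _ (pow_ne_zero n hιd)]
  have hdn : algebraMap k[X] (RatFunc k) d ^ n ≠ 0 := pow_ne_zero n hιd
  rw [e A (le_max_left _ _), e B (le_max_right _ _), div_div_div_cancel_right₀ hdn]
  have hcop := s58p_coprime_hom hAB hcd hn
  have hH := s58p_H_hom hAB (s58p_pair_ne_zero hcd) hn
  by_cases hB0 : s58p_hom n B c d = 0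
  · rw [hB0, map_zero, div_zero, s58p_rdeg_zero]
    rw [hB0] at hcop hH
    have hu : IsUnit (s58p_hom n A c d) := isCoprime_zero_right.mp hcop
    rw [natDegree_eq_zero_of_isUnit hu, natDegree_zero, max_self] at hH
    exact hH
  · rw [s58p_rdeg_div hcop hB0, hH]
    rfl

/-! ### Points with `x`-coordinate in `k(X)` -/

variable (W : WeierstrassCurve k)
  {F : Type*} [Field F] [Algebra k F] [Algebra (RatFunc k) F] [IsScalarTower k (RatFunc k) F]

/-- The point is `0` or its `x`-coordinate lies in `k(X)`. -/
def s58p_XRat : (W⁄F).Point → Prop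
  | .zero => True
  | .some x _ _ => ∃ r : RatFunc k, algebraMap (RatFunc k) F r = x

open Classical in
/-- Degree of the `x`-coordinate (as a rational function of `X`); `0` for the point `0`. -/
noncomputable def s58p_xdeg : (W⁄F).Point → ℕ
  | .zero => 0
  | .some x _ _ =>
    if h : ∃ r : RatFunc k, algebraMap (RatFunc k) F r = x then s58p_rdeg h.choose else 0

theorem s58p_xdeg_zero : s58p_xdeg W (0 : (W⁄F).Point) = 0 := rfl

theorem s58p_xdeg_some {x y : F} (h : (W⁄F).toAffine.Nonsingular x y) {r : RatFunc k}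
    (hr : algebraMap (RatFunc k) F r = x) : s58p_xdeg W (Point.some x y h) = s58p_rdeg r := by
  have hex : ∃ r : RatFunc k, algebraMap (RatFunc k) F r = x := ⟨r, hr⟩
  classical
  change (if h : ∃ r : RatFunc k, algebraMap (RatFunc k) F r = x then s58p_rdeg h.choose else 0) = _
  rw [dif_pos hex]
  congr 1
  exact (algebraMap (RatFunc k) F).injective (hex.choose_spec.trans hr.symm)

/-- The `k[X]`-algebra structure on `F` induced by `k(X) → F`. -/
@[reducible] noncomputable def s58p_polyAlgebra : Algebra k[X] F :=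
  ((algebraMap (RatFunc k) F).comp (algebraMap k[X] (RatFunc k))).toAlgebra

theorem s58p_polyAlgebra_tower :
    letI := s58p_polyAlgebra (k := k) (F := F)
    IsScalarTower k k[X] F := by
  letI := s58p_polyAlgebra (k := k) (F := F)
  refine IsScalarTower.of_algebraMap_eq fun a => ?_
  show algebraMap k F a = algebraMap (RatFunc k) F (algebraMap k[X] (RatFunc k) (algebraMap k k[X] a))
  rw [← IsScalarTower.algebraMap_apply k k[X] (RatFunc k), ← IsScalarTower.algebraMap_apply]

theorem s58p_polyAlgebra_injective :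
    letI := s58p_polyAlgebra (k := k) (F := F)
    Function.Injective (algebraMap k[X] F) := by
  letI := s58p_polyAlgebra (k := k) (F := F)
  exact (algebraMap (RatFunc k) F).injective.comp (RatFunc.algebraMap_injective k)

/-- A point with `x`-coordinate in `k(X)` is represented, and `s58p_xdeg = s58p_deg`. -/
theorem s58p_xrat_rep {P : (W⁄F).Point} (hP : s58p_XRat W P) :
    letI := s58p_polyAlgebra (k := k) (F := F)
    haveI := s58p_polyAlgebra_tower (k := k) (F := F)
    s58p_IsRat W P ∧ s58p_deg W P = s58p_xdeg W P := by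
  letI := s58p_polyAlgebra (k := k) (F := F)
  haveI := s58p_polyAlgebra_tower (k := k) (F := F)
  have hinj := s58p_polyAlgebra_injective (k := k) (F := F)
  rcases P with _ | ⟨x, y, h⟩
  · exact ⟨s58p_isRat_zero W, s58p_deg_zero W hinj⟩
  · obtain ⟨r, hr⟩ := hP
    have hd : algebraMap k[X] F r.denom ≠ 0 := by
      rw [← map_zero (algebraMap k[X] F)]
      exact fun h0 => r.denom_ne_zero (hinj h0)
    have hx : x * algebraMap k[X] F r.denom = algebraMap k[X] F r.num := by
      show x * algebraMap (RatFunc k) F (algebraMap k[X] (RatFunc k) r.denom) =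
        algebraMap (RatFunc k) F (algebraMap k[X] (RatFunc k) r.num)
      rw [← hr, ← map_mul]
      congr 1
      have := RatFunc.num_div_denom r
      rw [div_eq_iff (RatFunc.algebraMap_ne_zero r.denom_ne_zero)] at this
      exact this.symm
    have hrep : s58p_Rep W (Point.some x y h) r.num r.denom :=
      s58p_rep_some W h (RatFunc.isCoprime_num_denom r) hd hx
    refine ⟨⟨_, _, hrep⟩, ?_⟩
    rw [s58p_deg_eq W hinj hrep, s58p_xdeg_some W h hr]
    rfl

variable [DecidableEq F] [W.IsElliptic]

/-- **The exact parallelogram law**, `RatFunc` form. -/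
theorem s58p_parallelogram_xdeg {P Q : (W⁄F).Point} (hP : s58p_XRat W P) (hQ : s58p_XRat W Q)
    (hS : s58p_XRat W (P + Q)) (hD : s58p_XRat W (P - Q)) :
    s58p_xdeg W (P + Q) + s58p_xdeg W (P - Q) = 2 * s58p_xdeg W P + 2 * s58p_xdeg W Q := by
  letI := s58p_polyAlgebra (k := k) (F := F)
  haveI := s58p_polyAlgebra_tower (k := k) (F := F)
  have hinj := s58p_polyAlgebra_injective (k := k) (F := F)
  obtain ⟨rP, dP⟩ := s58p_xrat_rep W hP
  obtain ⟨rQ, dQ⟩ := s58p_xrat_rep W hQ
  obtain ⟨rS, dS⟩ := s58p_xrat_rep W hS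
  obtain ⟨rD, dD⟩ := s58p_xrat_rep W hD
  rw [← dP, ← dQ, ← dS, ← dD]
  exact s58p_parallelogram_deg W hinj rP rQ rS rD

end Fermat.Agent.S58
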